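import Fermat.Agent.H51.S58.Interfaces2
import Fermat.Agent.H81.Cyclo.Roots

/-!
# S58 glue, block UNIP (row 1106, second seat helper44)

`inertiaUnipotent`: a `p`-adic representation `ρ` whose Frobenius characteristic polynomials are
those of a semistable integral Weierstrass model `W` is unipotent on inertia at every prime
`q ≠ p`.

Proof: for `σ` in the inertia group at a place `A` over `q` and every `k`, CMP gives integers
`t ≡ tr ρ(σ)`, `d ≡ det ρ(σ)` modulo `p ^ k` with `σ ζ = ζ ^ d` on `p ^ k`-th roots of unity and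
`σ² - t σ + d = 0` on `E[p ^ k]`.  Inertia fixes the roots of unity, so `d ≡ 1`; inertia fixes a
point of exact order `p ^ k` with nonsingular reduction, so `1 - t + d ≡ 0`.  Hence
`tr ρ(σ) = 2`, `det ρ(σ) = 1` by Krull's intersection theorem.
-/

set_option autoImplicit false

open Polynomial WeierstrassCurve WeierstrassCurve.Affine

namespace Fermat.Agent.H44.S58

open Fermat.Agent.H51.S58

/-- Krull intersection in a discrete valuation ring, in the form used here. -/
theorem unip_eq_zero_of_forall_mem_span {O : Type} [CommRing O] [IsDomain O]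
    [IsDiscreteValuationRing O] {p : ℕ} (hp : (p : O) ∈ IsLocalRing.maximalIdeal O) {x : O}
    (h : ∀ k : ℕ, x ∈ Ideal.span {((p ^ k : ℕ) : O)}) : x = 0 := by
  have h1 : ∀ k : ℕ, x ∈ IsLocalRing.maximalIdeal O ^ k := by
    intro k
    have hle : Ideal.span {((p ^ k : ℕ) : O)} ≤ IsLocalRing.maximalIdeal O ^ k := by
      rw [Ideal.span_singleton_le_iff_mem, Nat.cast_pow]
      exact Ideal.pow_mem_pow hp k
    exact hle (h k)
  have h2 : x ∈ (⨅ k : ℕ, IsLocalRing.maximalIdeal O ^ k : Ideal O) := by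
    simp only [Ideal.mem_iInf]
    exact h1
  rw [Ideal.iInf_pow_eq_bot_of_isLocalRing _ (IsLocalRing.maximalIdeal.isMaximal O).ne_top] at h2
  simpa using h2

/-- An integer killing a point of exact order `n` is divisible by `n`. -/
theorem unip_dvd_of_zsmul_eq_zero {W : WeierstrassCurve ℤ} {P : EPt W} {n : ℕ}
    (hP : HasExactOrder P n) {z : ℤ} (hz : z • P = 0) : (n : ℤ) ∣ z := by
  have h1 : z.natAbs • P = 0 := by
    rcases Int.natAbs_eq z with h | h
    · rw [← natCast_zsmul, ← h]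
      exact hz
    · rw [← natCast_zsmul, ← neg_eq_zero, ← neg_zsmul, ← h]
      exact hz
  have h2 : n ∣ z.natAbs := hP.2 _ h1
  exact Int.natCast_dvd.mpr h2

/-- If a primitive `n`-th root of unity satisfies `ζ ^ d = ζ` then `n ∣ d - 1`. -/
theorem unip_dvd_sub_one {L : Type*} [Field L] {ζ : L} {n : ℕ} (hζ : IsPrimitiveRoot ζ n)
    (hn : n ≠ 0) {d : ℕ} (h : ζ ^ d = ζ) : (n : ℤ) ∣ (d : ℤ) - 1 := by
  have hζ0 : ζ ≠ 0 := hζ.ne_zero hn
  rw [← hζ.zpow_eq_one_iff_dvd, zpow_sub₀ hζ0, zpow_natCast, zpow_one, h]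
  exact div_self hζ0

/-- **UNIP** (row 1106). -/
theorem inertiaUnipotent (hCmp : CompareStatement) (hDiv : ExactOrderStatement)
    (hGood : GoodRedAllStatement) (hIn : InertiaGoodRedStatement)
    (hNode : NodeExactOrderStatement) : InertiaUnipotentStatement := by
  intro W hss hΔ p hpF hp2 O _ _ _ _ hpO ρ S hFrob q hq hqp A hA σ hσ
  have hp : p.Prime := hpF.out
  -- the key congruences at every finite level
  have key : ∀ k : ℕ,
      LinearMap.trace O ρ.V (ρ.ρ σ) - 2 ∈ Ideal.span {((p ^ k : ℕ) : O)} ∧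
      LinearMap.det (ρ.ρ σ) - 1 ∈ Ideal.span {((p ^ k : ℕ) : O)} := by
    intro k
    obtain ⟨t, d, htr, hdet, hζ, hrel⟩ := hCmp W hΔ p hp2 O hpO ρ S hFrob σ k
    have hpk0 : p ^ k ≠ 0 := pow_ne_zero k hp.ne_zero
    have hqpk : ¬ q ∣ p ^ k := fun h =>
      hqp ((Nat.prime_dvd_prime_iff_eq hq hp).mp (hq.dvd_of_dvd_pow h))
    -- (1) `d ≡ 1`
    have hd : ((p ^ k : ℕ) : ℤ) ∣ (d : ℤ) - 1 := by
      have : NeZero ((p : ℕ) : ℚ) := ⟨by exact_mod_cast hp.ne_zero⟩
      obtain ⟨ζ, hζp⟩ := HasEnoughRootsOfUnity.exists_primitiveRoot (AlgebraicClosure ℚ) (p ^ k)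
      have h1 : σ ζ = ζ ^ d := hζ ζ hζp.pow_eq_one
      have h2 : σ ζ = ζ :=
        Fermat.Agent.H81.Cyclo.inertia_root_of_unity hq hA hσ hqpk hζp.pow_eq_one
      exact unip_dvd_sub_one hζp hpk0 (h1.symm.trans h2)
    -- (2) a point of exact order `p ^ k` with nonsingular reduction
    obtain ⟨P, hPord, hPgood⟩ : ∃ P : EPt W, HasExactOrder P (p ^ k) ∧ GoodRedAt W A P := by
      by_cases hqΔ : (q : ℤ) ∣ W.Δ
      · exact hNode W hΔ q hq hqΔ (hss q hq hqΔ) p hp hp2 (fun h => hqp h.symm) A hA k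
      · obtain ⟨P, hP⟩ := hDiv W hΔ p hp hp2 k
        exact ⟨P, hP, hGood W q hq hqΔ A hA (p ^ k) hqpk (Nat.pos_of_ne_zero hpk0) P hP.1⟩
    -- (3) `σ P = P`, hence `1 - t + d ≡ 0`
    have hσP : σ • P = P :=
      hIn W q hq A hA σ hσ (p ^ k) hqpk (Nat.pos_of_ne_zero hpk0) P hPord.1 hPgood
    have hrelP := hrel P hPord.1
    rw [hσP, hσP] at hrelP
    have hz : ((1 : ℤ) - t + d) • P = 0 := by
      rw [add_zsmul, sub_zsmul, one_zsmul]
      exact hrelP
    have ht : ((p ^ k : ℕ) : ℤ) ∣ (1 : ℤ) - t + d := unip_dvd_of_zsmul_eq_zero hPord hz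
    have ht2 : ((p ^ k : ℕ) : ℤ) ∣ t - 2 := by
      have h := dvd_sub hd ht
      have he : ((d : ℤ) - 1) - ((1 : ℤ) - t + d) = t - 2 := by ring
      rwa [he] at h
    -- transport to `O`
    have cast_mem : ∀ z : ℤ, ((p ^ k : ℕ) : ℤ) ∣ z → (z : O) ∈ Ideal.span {((p ^ k : ℕ) : O)} := by
      rintro z ⟨c, rfl⟩
      rw [Ideal.mem_span_singleton]
      refine ⟨(c : O), ?_⟩
      push_cast
      ring
    constructor
    · have h1 := Ideal.add_mem _ htr (cast_mem _ ht2)
      have he : LinearMap.trace O ρ.V (ρ.ρ σ) - (t : O) + ((t - 2 : ℤ) : O) =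
          LinearMap.trace O ρ.V (ρ.ρ σ) - 2 := by
        push_cast
        ring
      rwa [he] at h1
    · have h1 := Ideal.add_mem _ hdet (cast_mem _ hd)
      have he : LinearMap.det (ρ.ρ σ) - (d : O) + (((d : ℤ) - 1 : ℤ) : O) =
          LinearMap.det (ρ.ρ σ) - 1 := by
        push_cast
        ring
      rwa [he] at h1
  have htr : LinearMap.trace O ρ.V (ρ.ρ σ) = 2 :=
    sub_eq_zero.mp (unip_eq_zero_of_forall_mem_span hpO fun k => (key k).1)
  have hdet : LinearMap.det (ρ.ρ σ) = 1 :=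
    sub_eq_zero.mp (unip_eq_zero_of_forall_mem_span hpO fun k => (key k).2)
  rw [s58_charpoly_eq ρ.finrank_eq, htr, hdet]
  simp only [map_ofNat, map_one]
  ring

end Fermat.Agent.H44.S58
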